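import Mathlib
import Fermat.Prelude.Def_FormalHecke_Eigensystem

set_option autoImplicit false

namespace Fermat.Agent.S49Lib

variable {R : Type*} [CommRing R]

theorem eigensystem_mul_coprime {e a : ℕ → R} (h : FormalHecke.IsEigensystem e a) :
    ∀ m n : ℕ, m.Coprime n → a (m * n) = a m * a n := by
  obtain ⟨h1, hrec⟩ := h
  intro m
  induction' m using Nat.strong_induction_on with m ih
  intro n hmn
  rcases Nat.lt_or_ge m 2 with hm | hm
  · interval_cases m
    · have : n = 1 := by simpa using hmn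
      subst this
      simp [h1]
    · simp [h1]
  · obtain ⟨p, hp, hpm⟩ := Nat.exists_prime_and_dvd (n := m) (by omega)
    obtain ⟨m', rfl⟩ := hpm
    have hm'pos : 0 < m' := by
      rcases Nat.eq_zero_or_pos m' with h0 | h0
      · subst h0; omega
      · exact h0
    have hm'lt : m' < p * m' := by
      have := hp.two_le
      nlinarith
    have hcop' : m'.Coprime n := Nat.Coprime.coprime_mul_left hmn
    have hpn : p.Coprime n := Nat.Coprime.coprime_mul_right hmn
    have hpn' : ¬ p ∣ n := (Nat.Prime.coprime_iff_not_dvd hp).mp hpn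
    have e1 := hrec p hp (m' * n)
    have e2 := hrec p hp m'
    have hdvd : p ∣ m' * n ↔ p ∣ m' := by
      constructor
      · intro hd
        exact (hp.dvd_mul.mp hd).resolve_right hpn'
      · intro hd
        exact Dvd.dvd.mul_right hd n
    rw [mul_assoc]
    by_cases hd : p ∣ m'
    · obtain ⟨m'', rfl⟩ := hd
      have hd1 : p ∣ p * m'' * n := hdvd.mpr (Dvd.intro _ rfl)
      rw [if_pos hd1] at e1
      rw [if_pos (Dvd.intro _ rfl)] at e2
      have hdiv1 : p * m'' * n / p = m'' * n := by
        rw [mul_assoc, Nat.mul_div_cancel_left _ hp.pos]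
      have hdiv2 : p * m'' / p = m'' := Nat.mul_div_cancel_left _ hp.pos
      rw [hdiv1] at e1
      rw [hdiv2] at e2
      have hm''lt : m'' < p * (p * m'') := by
        have := hp.two_le
        have hpos : 0 < m'' := by
          rcases Nat.eq_zero_or_pos m'' with h0 | h0
          · subst h0; omega
          · exact h0
        nlinarith
      have hcop'' : m''.Coprime n := Nat.Coprime.coprime_mul_left hcop'
      have i1 := ih _ hm'lt n hcop'
      have i2 := ih _ hm''lt n hcop''
      rw [i1, i2] at e1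
      linear_combination e1 - a n * e2
    · have hd1 : ¬ p ∣ m' * n := fun hh => hd (hdvd.mp hh)
      rw [if_neg hd1] at e1
      rw [if_neg hd] at e2
      have i1 := ih _ hm'lt n hcop'
      rw [i1] at e1
      linear_combination e1 - a n * e2

theorem eigensystem_prime_pow {e a : ℕ → R} (h : FormalHecke.IsEigensystem e a) :
    ∀ ℓ r : ℕ, ℓ.Prime → a (ℓ ^ (r + 2)) = a ℓ * a (ℓ ^ (r + 1)) - e ℓ * a (ℓ ^ r) := by
  obtain ⟨-, hrec⟩ := h
  intro ℓ r hℓ
  have e1 := hrec ℓ hℓ (ℓ ^ (r + 1))
  rw [if_pos (dvd_pow_self ℓ (Nat.succ_ne_zero r))] at e1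
  have hdiv : ℓ ^ (r + 1) / ℓ = ℓ ^ r := by
    rw [pow_succ, Nat.mul_div_cancel _ hℓ.pos]
  rw [hdiv] at e1
  have hpow : ℓ * ℓ ^ (r + 1) = ℓ ^ (r + 2) := by ring
  rw [hpow] at e1
  linear_combination e1

theorem isRecursive_of_isEigensystem {e a : ℕ → R} (h : FormalHecke.IsEigensystem e a) :
    FormalHecke.IsRecursive e a :=
  ⟨h.1, eigensystem_mul_coprime h, eigensystem_prime_pow h⟩

/-- If the relations hold with eigenvalues `lam` and `b 0 = b 1 = 0`, then `b = 0`. -/
theorem eq_zero_of_hecke_relations {e lam b : ℕ → R} (h0 : b 0 = 0) (h1 : b 1 = 0)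
    (hrec : ∀ ℓ : ℕ, ℓ.Prime → ∀ n : ℕ,
      b (ℓ * n) + e ℓ * (if ℓ ∣ n then b (n / ℓ) else 0) = lam ℓ * b n) :
    ∀ n, b n = 0 := by
  intro n
  induction' n using Nat.strong_induction_on with n ih
  rcases Nat.lt_or_ge n 2 with hn | hn
  · interval_cases n
    · exact h0
    · exact h1
  · obtain ⟨p, hp, hpn⟩ := Nat.exists_prime_and_dvd (n := n) (by omega)
    obtain ⟨m, rfl⟩ := hpn
    have hmpos : 0 < m := by
      rcases Nat.eq_zero_or_pos m with h0 | h0
      · subst h0; omega
      · exact h0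
    have hmlt : m < p * m := by
      have := hp.two_le
      nlinarith
    have e1 := hrec p hp m
    have hdivlt : m / p < p * m := lt_of_le_of_lt (Nat.div_le_self m p) hmlt
    rw [ih m hmlt, ih (m / p) hdivlt] at e1
    simpa using e1

end Fermat.Agent.S49Lib
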