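import Mathlib

set_option autoImplicit false

namespace Fermat.Agent.S49Lib

open Module

variable {K V : Type*} [Field K] [IsAlgClosed K] [AddCommGroup V] [Module K V]
  [FiniteDimensional K V]

/-- A commuting family of endomorphisms has a common eigenvector in every nonzero
invariant subspace. -/
theorem exists_common_eigenvector (𝒜 : Set (Module.End K V))
    (hcomm : ∀ S ∈ 𝒜, ∀ T ∈ 𝒜, Commute S T)
    (W : Submodule K V) (hW : W ≠ ⊥) (hinv : ∀ T ∈ 𝒜, ∀ w ∈ W, T w ∈ W) :
    ∃ v ∈ W, v ≠ 0 ∧ ∀ T ∈ 𝒜, ∃ μ : K, T v = μ • v := by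
  induction' hn : finrank K W using Nat.strong_induction_on with n ih generalizing W
  by_cases hsc : ∀ T ∈ 𝒜, ∃ μ : K, ∀ w ∈ W, T w = μ • w
  · obtain ⟨v, hv, hv0⟩ := Submodule.exists_mem_ne_zero_of_ne_bot hW
    exact ⟨v, hv, hv0, fun T hT => (hsc T hT).imp fun μ h => h v hv⟩
  · push Not at hsc
    obtain ⟨T, hT, hTns⟩ := hsc
    have : Nontrivial W := Submodule.nontrivial_iff_ne_bot.mpr hW
    obtain ⟨μ, hμ⟩ := Module.End.exists_eigenvalue (T.restrict (hinv T hT))
    obtain ⟨w, hw⟩ := hμ.exists_hasEigenvector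
    have hw1 : T (w : V) = μ • (w : V) := by
      have := hw.apply_eq_smul
      exact congrArg Subtype.val this
    have hw0 : (w : V) ≠ 0 := fun h0 => hw.2 (Subtype.ext h0)
    obtain ⟨w', hw', hne⟩ := hTns μ
    set W' : Submodule K V := W ⊓ Module.End.eigenspace T μ with hW'
    have hW'ne : W' ≠ ⊥ := by
      intro hbot
      have : (w : V) ∈ W' := ⟨w.2, Module.End.mem_eigenspace_iff.mpr hw1⟩
      rw [hbot] at this
      exact hw0 ((Submodule.mem_bot K).mp this)
    have hlt : W' < W := by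
      refine lt_of_le_of_ne inf_le_left ?_
      intro heq
      have : w' ∈ W' := heq ▸ hw'
      exact hne (Module.End.mem_eigenspace_iff.mp this.2)
    have hinv' : ∀ S ∈ 𝒜, ∀ x ∈ W', S x ∈ W' := by
      intro S hS x hx
      refine ⟨hinv S hS x hx.1, Module.End.mem_eigenspace_iff.mpr ?_⟩
      have hx2 := Module.End.mem_eigenspace_iff.mp hx.2
      have hc : T (S x) = S (T x) := by
        have := (hcomm T hT S hS).eq
        exact congrArg (fun F : Module.End K V => F x) this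
      rw [hc, hx2, map_smul]
    obtain ⟨v, hv, hv0, hvT⟩ := ih (finrank K W') (hn ▸ Submodule.finrank_lt_finrank_of_lt hlt)
      W' hW'ne hinv' rfl
    exact ⟨v, hv.1, hv0, hvT⟩

/-- Key lemma: for a commutative ring acting faithfully on a finite-dimensional space over an
algebraically closed field and a prime ideal, some eigen-character has kernel inside the prime. -/
theorem exists_eigenchar_ker_le {A : Type*} [CommRing A] (ρ : A →+* Module.End K V)
    (hρ : Function.Injective ρ) (𝔪 : Ideal A) [h𝔪 : 𝔪.IsPrime] :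
    ∃ (v : V) (χ : A →+* K), v ≠ 0 ∧ (∀ t, ρ t v = χ t • v) ∧ RingHom.ker χ ≤ 𝔪 := by
  classical
  -- choose `s₀ ∉ 𝔪` with image of minimal dimension
  have hex : ∃ s : A, s ∉ 𝔪 := ⟨1, fun h1 => h𝔪.ne_top ((Ideal.eq_top_iff_one 𝔪).mpr h1)⟩
  obtain ⟨s₀, hs₀, hmin⟩ : ∃ s₀ : A, s₀ ∉ 𝔪 ∧ ∀ s : A, s ∉ 𝔪 →
      finrank K (LinearMap.range (ρ s₀)) ≤ finrank K (LinearMap.range (ρ s)) := by
    let P : ℕ → Prop := fun n => ∃ s : A, s ∉ 𝔪 ∧ finrank K (LinearMap.range (ρ s)) = n
    have hP : ∃ n, P n := by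
      obtain ⟨s, hs⟩ := hex
      exact ⟨_, s, hs, rfl⟩
    obtain ⟨s₀, hs₀, hs₀n⟩ := Nat.find_spec hP
    refine ⟨s₀, hs₀, fun s hs => ?_⟩
    rw [hs₀n]
    exact Nat.find_min' hP ⟨s, hs, rfl⟩
  set W : Submodule K V := LinearMap.range (ρ s₀) with hWdef
  have hW : W ≠ ⊥ := by
    intro hbot
    have h0 : ρ s₀ = 0 := LinearMap.range_eq_bot.mp hbot
    have : s₀ = 0 := hρ (by rw [h0, map_zero])
    exact hs₀ (this ▸ 𝔪.zero_mem)
  have hcomm : ∀ S ∈ Set.range ρ, ∀ T ∈ Set.range ρ, Commute S T := by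
    rintro _ ⟨s, rfl⟩ _ ⟨t, rfl⟩
    exact (Commute.all s t).map ρ
  have hinv : ∀ T ∈ Set.range ρ, ∀ w ∈ W, T w ∈ W := by
    rintro _ ⟨t, rfl⟩ _ ⟨x, rfl⟩
    refine ⟨ρ t x, ?_⟩
    have := ((Commute.all s₀ t).map ρ).eq
    exact congrArg (fun F : Module.End K V => F x) this
  obtain ⟨v, hvW, hv0, hv⟩ := exists_common_eigenvector (Set.range ρ) hcomm W hW hinv
  have hv' : ∀ t : A, ∃ μ : K, ρ t v = μ • v := fun t => hv _ ⟨t, rfl⟩
  choose χ hχ using hv'
  have hinj : Function.Injective fun c : K => c • v := smul_left_injective K hv0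
  let χ' : A →+* K :=
    { toFun := χ
      map_one' := hinj (by simp only [← hχ, map_one, Module.End.one_apply, one_smul])
      map_mul' := fun s t => hinj (by
        simp only [← hχ, map_mul, Module.End.mul_apply]
        rw [hχ t, map_smul, hχ s, smul_smul, mul_comm])
      map_zero' := hinj (by simp only [← hχ, map_zero, LinearMap.zero_apply, zero_smul])
      map_add' := fun s t => hinj (by
        simp only [← hχ, map_add, LinearMap.add_apply, add_smul]) }
  refine ⟨v, χ', hv0, hχ, fun t ht => ?_⟩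
  by_contra htm
  have ht0 : χ t = 0 := ht
  have hts : t * s₀ ∉ 𝔪 := fun hmem => (h𝔪.mem_or_mem hmem).elim htm hs₀
  have h1 := hmin _ hts
  have hrange : LinearMap.range (ρ (t * s₀)) = LinearMap.range ((ρ t).domRestrict W) := by
    rw [LinearMap.range_domRestrict, hWdef, map_mul, Module.End.mul_eq_comp, LinearMap.range_comp]
  have h2 := LinearMap.finrank_range_add_finrank_ker ((ρ t).domRestrict W)
  have h3 : 0 < finrank K (LinearMap.ker ((ρ t).domRestrict W)) := by
    rw [Module.finrank_pos_iff, Submodule.nontrivial_iff_ne_bot]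
    intro hbot
    have : (⟨v, hvW⟩ : W) ∈ LinearMap.ker ((ρ t).domRestrict W) := by
      rw [LinearMap.mem_ker, LinearMap.domRestrict_apply, hχ, ht0, zero_smul]
    rw [hbot] at this
    exact hv0 (congrArg Subtype.val ((Submodule.mem_bot K).mp this))
  rw [hrange] at h1
  omega

end Fermat.Agent.S49Lib
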