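import Mathlib
import Fermat.Prelude.Def_CuspForm_IntegralLattice
import Fermat.Prelude.Def_FormalHecke_Eigensystem
import Fermat.Prelude.Def_CuspForm_HeckeAlgebra
import Fermat.Prelude.Thm_CuspForm_intLattice_fg
import Fermat.Prelude.Thm_CuspForm_mem_intLattice_of_mem_heckeAlgebra
import Fermat.Prelude.Thm_ModularFormClass_qCoeff_heckeT
import Fermat.Prelude.Thm_ModularFormClass_qCoeff_heckeU
import Fermat.Agent.S49.LinAlg
import Fermat.Agent.S49.Formal

set_option autoImplicit false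

namespace Fermat.Agent.S49Lib

open CuspForm ModularFormClass CongruenceSubgroup EisensteinWeightOne
open P2MW.S_CuspForm_intLattice_fg.W3WsD (qCoeff_add qCoeff_zsmul mem_intLattice_iff trunc
  trunc_injective hΓ)

variable {N : ℕ}

theorem qCoeff_smul {k : ℤ} (c : ℂ) (f : CuspForm (Gamma0 N) k) (n : ℕ) :
    qCoeff ⇑(c • f) n = c * qCoeff ⇑f n := by
  simp only [qCoeff, CuspForm.IsGLPos.coe_smul]
  rw [ModularForm.qExpansion_smul one_pos (hΓ N) c f]
  simp

theorem qCoeff_zero_index {k : ℤ} (f : CuspForm (Gamma0 N) k) : qCoeff ⇑f 0 = 0 :=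
  CuspFormClass.qExpansion_coeff_zero f one_pos (hΓ N)

theorem eq_zero_of_qCoeff_eq_zero [NeZero N] {k : ℤ} (f : CuspForm (Gamma0 N) k)
    (h : ∀ n, qCoeff ⇑f n = 0) : f = 0 := by
  apply trunc_injective N k
  funext i
  rw [map_zero]
  exact h i

theorem qCoeff_heckeTLin {ℓ : ℕ} (hℓ : ℓ.Prime) (hℓN : ¬ ℓ ∣ N) (f : CuspForm (Gamma0 N) 2)
    (n : ℕ) :
    qCoeff ⇑(heckeTLin 2 hℓ hℓN f) n =
      qCoeff ⇑f (ℓ * n) + (ℓ : ℂ) * (if ℓ ∣ n then qCoeff ⇑f (n / ℓ) else 0) := by
  rw [coe_heckeTLin_apply, ModularFormClass.qCoeff_heckeT f (hΓ N) hℓ.ne_zero n,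
    ModularForm.coeffHeckeT_apply, mul_comm n ℓ]
  split_ifs <;> simp

theorem qCoeff_heckeULin [NeZero N] {q : ℕ} (hq : q.Prime) (hqN : q ∣ N)
    (f : CuspForm (Gamma0 N) 2) (n : ℕ) :
    qCoeff ⇑(heckeULin 2 hqN f) n = qCoeff ⇑f (q * n) := by
  rw [coe_heckeULin_apply, ModularFormClass.qCoeff_heckeU f (hΓ N) hq.ne_zero n,
    ModularForm.coeffHeckeU_apply, mul_comm n q]

theorem mem_qIntegralSet_iff (f : CuspForm (Gamma0 N) 2) :
    f ∈ qIntegralSet N ↔ f ∈ intLattice N 2 := by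
  rw [mem_intLattice_iff]
  simp only [qIntegralSet, Set.mem_setOf_eq, Subring.mem_bot]
  exact forall_congr' fun n => exists_congr fun m => eq_comm

theorem span_intLattice_eq_top (h : HasIntegralBasis N) :
    Submodule.span ℂ ((intLattice N 2 : Submodule ℤ (CuspForm (Gamma0 N) 2)) :
      Set (CuspForm (Gamma0 N) 2)) = ⊤ := by
  rw [eq_top_iff, ← h]
  exact Submodule.span_mono fun f hf => (mem_qIntegralSet_iff f).mp hf

theorem exists_finset_span [NeZero N] (h : HasIntegralBasis N) :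
    ∃ s : Finset (CuspForm (Gamma0 N) 2), (∀ x ∈ s, x ∈ intLattice N 2) ∧
      Submodule.span ℂ (s : Set (CuspForm (Gamma0 N) 2)) = ⊤ := by
  obtain ⟨s, hs⟩ := intLattice_fg N 2
  refine ⟨s, fun x hx => hs ▸ Submodule.subset_span hx, ?_⟩
  rw [← span_intLattice_eq_top h, ← hs, Submodule.span_span_of_tower]

theorem finiteDimensional_of_hasIntegralBasis [NeZero N] (h : HasIntegralBasis N) :
    FiniteDimensional ℂ (CuspForm (Gamma0 N) 2) := by
  obtain ⟨s, -, hs⟩ := exists_finset_span h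
  exact ⟨⟨s, hs⟩⟩

/-- Under `HasIntegralBasis`, the full Hecke algebra is a finite `ℤ`-module. -/
theorem heckeAlgebra_finite [NeZero N] (h : HasIntegralBasis N) (S : Set ℕ) :
    Module.Finite ℤ (heckeAlgebra N 2 S) := by
  classical
  obtain ⟨s, hsL, hs⟩ := exists_finset_span h
  have : Module.Finite ℤ (intLattice N 2) := Module.Finite.iff_fg.mpr (intLattice_fg N 2)
  let Φ : heckeAlgebra N 2 S →ₗ[ℤ] (s → intLattice N 2) :=
    { toFun := fun T i => ⟨(T : Module.End ℂ (CuspForm (Gamma0 N) 2)) i.1,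
        mem_intLattice_of_mem_heckeAlgebra (by norm_num) T.2 (hsL i.1 i.2)⟩
      map_add' := fun T T' => by
        funext i
        apply Subtype.ext
        simp
      map_smul' := fun c T => by
        funext i
        apply Subtype.ext
        simp }
  have hΦ : Function.Injective Φ := by
    intro T T' hTT'
    apply Subtype.ext
    apply LinearMap.ext_on hs
    intro x hx
    have := congrFun hTT' ⟨x, hx⟩
    exact congrArg Subtype.val this
  exact Module.Finite.of_injective Φ hΦ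

end Fermat.Agent.S49Lib
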