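import Fermat.Agent.S49.Cong

set_option autoImplicit false

namespace Fermat.Agent.S49Lib

open CuspForm ModularFormClass CongruenceSubgroup EisensteinWeightOne
open P2MW.S_CuspForm_intLattice_fg.W3WsD (qCoeff_add qCoeff_zsmul mem_intLattice_iff trunc
  trunc_injective hΓ)

variable {N : ℕ}

/-- A nonzero common eigenvector of the full Hecke algebra can be normalised to a
normalised eigenform, whose prime-indexed coefficients are the eigenvalues. -/
theorem exists_normalizedEigenform_of_eigenvector [NeZero N] (v : CuspForm (Gamma0 N) 2)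
    (hv0 : v ≠ 0) (χ : heckeAlgebra N 2 (∅ : Set ℕ) →+* ℂ)
    (hχ : ∀ t : heckeAlgebra N 2 (∅ : Set ℕ),
      (t : Module.End ℂ (CuspForm (Gamma0 N) 2)) v = χ t • v) :
    ∃ g : CuspForm (Gamma0 N) 2, g.IsNormalizedEigenform ∧
      ∀ (ℓ : ℕ) (hℓ : ℓ.Prime) (hℓN : ¬ ℓ ∣ N),
        qCoeff ⇑g ℓ = χ (heckeAlgebra.T hℓ hℓN (Set.notMem_empty ℓ)) := by
  classical
  let e : ℕ → ℂ := fun ℓ => if ℓ ∣ N then 0 else (ℓ : ℂ)
  let lam : ℕ → ℂ := fun ℓ =>
    if hℓ : ℓ.Prime then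
      (if hN : ℓ ∣ N then χ (heckeAlgebra.U hℓ hN (Set.notMem_empty ℓ))
        else χ (heckeAlgebra.T hℓ hN (Set.notMem_empty ℓ)))
    else 0
  have hrel : ∀ (w : CuspForm (Gamma0 N) 2),
      (∀ t : heckeAlgebra N 2 (∅ : Set ℕ),
        (t : Module.End ℂ (CuspForm (Gamma0 N) 2)) w = χ t • w) →
      ∀ ℓ : ℕ, ℓ.Prime → ∀ n : ℕ,
      qCoeff ⇑w (ℓ * n) + e ℓ * (if ℓ ∣ n then qCoeff ⇑w (n / ℓ) else 0)
        = lam ℓ * qCoeff ⇑w n := by
    intro w hw ℓ hℓ n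
    by_cases hN : ℓ ∣ N
    · have h1 := hw (heckeAlgebra.U hℓ hN (Set.notMem_empty ℓ))
      rw [heckeAlgebra.coe_U] at h1
      have h2 := qCoeff_heckeULin hℓ hN w n
      rw [h1, qCoeff_smul] at h2
      simp only [e, lam, dif_pos hℓ, dif_pos hN, if_pos hN, zero_mul, add_zero]
      exact h2.symm
    · have h1 := hw (heckeAlgebra.T hℓ hN (Set.notMem_empty ℓ))
      rw [heckeAlgebra.coe_T] at h1
      have h2 := qCoeff_heckeTLin hℓ hN w n
      rw [h1, qCoeff_smul] at h2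
      simp only [e, lam, dif_pos hℓ, dif_neg hN, if_neg hN]
      exact h2.symm
  have hb1 : qCoeff ⇑v 1 ≠ 0 := by
    intro h1
    exact hv0 (eq_zero_of_qCoeff_eq_zero v
      (eq_zero_of_hecke_relations (qCoeff_zero_index v) h1 (hrel v hχ)))
  set g : CuspForm (Gamma0 N) 2 := (qCoeff ⇑v 1)⁻¹ • v with hg
  have hgχ : ∀ t : heckeAlgebra N 2 (∅ : Set ℕ),
      (t : Module.End ℂ (CuspForm (Gamma0 N) 2)) g = χ t • g := by
    intro t
    rw [hg, map_smul, hχ t, smul_comm]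
  have hg1 : qCoeff ⇑g 1 = 1 := by
    rw [hg, qCoeff_smul, inv_mul_cancel₀ hb1]
  have hlam : ∀ ℓ : ℕ, ℓ.Prime → lam ℓ = qCoeff ⇑g ℓ := by
    intro ℓ hℓ
    have := hrel g hgχ ℓ hℓ 1
    rw [if_neg (by simpa using hℓ.one_lt.ne'), mul_zero, add_zero, mul_one, hg1, mul_one] at this
    exact this.symm
  have heig : FormalHecke.IsEigensystem e (fun n => qCoeff ⇑g n) := by
    refine ⟨hg1, fun ℓ hℓ n => ?_⟩
    have := hrel g hgχ ℓ hℓ n
    rw [hlam ℓ hℓ] at this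
    exact this
  obtain ⟨-, hmul, hpow⟩ := isRecursive_of_isEigensystem heig
  refine ⟨g, ⟨hg1, hmul, ?_, ?_⟩, ?_⟩
  · intro p r hp hpN
    have := hpow p r hp
    simpa only [e, if_neg hpN] using this
  · intro p r hp hpN
    have := hpow p r hp
    simpa only [e, if_pos hpN, zero_mul, sub_zero] using this
  · intro ℓ hℓ hℓN
    rw [← hlam ℓ hℓ]
    simp only [lam, dif_pos hℓ, dif_neg hℓN]

end Fermat.Agent.S49Lib
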