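import Fermat.Agent.S49.Hecke

set_option autoImplicit false

namespace Fermat.Agent.S49Lib

open CuspForm ModularFormClass CongruenceSubgroup EisensteinWeightOne
open P2MW.S_CuspForm_intLattice_fg.W3WsD (qCoeff_add qCoeff_zsmul mem_intLattice_iff trunc
  trunc_injective hΓ)

variable {N : ℕ}

theorem three_dvd_bridgeProduct_coeff_sub (a : ℕ → ℤ) (n : ℕ) :
    (3 : ℤ) ∣ (bridgeProduct a).coeff n - a n := by
  have hE : e1Chi3In ℤ = 1 + PowerSeries.C (3 : ℤ) *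
      PowerSeries.mk (fun n => if n = 0 then 0 else 2 * sigmaChi n) := by
    ext n
    simp only [e1Chi3In, e1Chi3, PowerSeries.coeff_map, PowerSeries.coeff_mk, map_add,
      PowerSeries.coeff_one, PowerSeries.coeff_C_mul]
    split_ifs <;> simp
    ring
  rw [bridgeProduct, hE, mul_add, mul_one, map_add, PowerSeries.coeff_mk, add_sub_cancel_left,
    mul_left_comm, PowerSeries.coeff_C_mul]
  exact Dvd.intro _ rfl

theorem three_dvd_sub_chiNegThree (ℓ : ℕ) : (3 : ℤ) ∣ (ℓ : ℤ) - chiNegThree ℓ := by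
  unfold chiNegThree
  split_ifs <;> omega

theorem exists_mem_intLattice_eq_three_smul (g : CuspForm (Gamma0 N) 2) (c : ℕ → ℤ)
    (hc : ∀ n, qCoeff ⇑g n = ((3 * c n : ℤ) : ℂ)) :
    ∃ g' ∈ intLattice N 2, g = (3 : ℤ) • g' := by
  refine ⟨(1 / 3 : ℂ) • g, ?_, ?_⟩
  · rw [mem_intLattice_iff]
    intro n
    refine ⟨c n, ?_⟩
    rw [qCoeff_smul, hc]
    push_cast
    ring
  · rw [← Int.cast_smul_eq_zsmul ℂ, smul_smul]
    norm_num

/-- The ideal of Hecke operators sending `f₀` into `3 L`. -/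
def congIdeal [NeZero N] (f₀ : CuspForm (Gamma0 N) 2) : Ideal (heckeAlgebra N 2 (∅ : Set ℕ)) where
  carrier := {T | ∃ g ∈ intLattice N 2,
    (T : Module.End ℂ (CuspForm (Gamma0 N) 2)) f₀ = (3 : ℤ) • g}
  add_mem' := by
    rintro S T ⟨g, hg, hS⟩ ⟨g', hg', hT⟩
    refine ⟨g + g', add_mem hg hg', ?_⟩
    rw [Subalgebra.coe_add, LinearMap.add_apply, hS, hT, smul_add]
  zero_mem' := ⟨0, zero_mem _, by simp⟩
  smul_mem' := by
    rintro S T ⟨g, hg, hT⟩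
    refine ⟨(S : Module.End ℂ (CuspForm (Gamma0 N) 2)) g,
      mem_intLattice_of_mem_heckeAlgebra (by norm_num) S.2 hg, ?_⟩
    rw [smul_eq_mul, Subalgebra.coe_mul, Module.End.mul_apply, hT, map_zsmul]

theorem mem_congIdeal [NeZero N] (f₀ : CuspForm (Gamma0 N) 2)
    (T : heckeAlgebra N 2 (∅ : Set ℕ)) :
    T ∈ congIdeal f₀ ↔ ∃ g ∈ intLattice N 2,
      (T : Module.End ℂ (CuspForm (Gamma0 N) 2)) f₀ = (3 : ℤ) • g := Iff.rfl

theorem congIdeal_ne_top [NeZero N] (f₀ : CuspForm (Gamma0 N) 2) (af : ℕ → ℤ)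
    (haf : ∀ n, (af n : ℂ) = qCoeff ⇑f₀ n) (h1 : ¬ (3 : ℤ) ∣ af 1) : congIdeal f₀ ≠ ⊤ := by
  intro htop
  have h1mem : (1 : heckeAlgebra N 2 (∅ : Set ℕ)) ∈ congIdeal f₀ := htop ▸ Submodule.mem_top
  obtain ⟨g, hg, hgf⟩ := (mem_congIdeal f₀ 1).mp h1mem
  rw [Subalgebra.coe_one, Module.End.one_apply] at hgf
  obtain ⟨m, hm⟩ := (mem_intLattice_iff g).mp hg 1
  have := haf 1
  rw [hgf, qCoeff_zsmul, hm] at this
  apply h1
  refine ⟨m, ?_⟩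
  exact_mod_cast this

theorem three_mem_congIdeal [NeZero N] (f₀ : CuspForm (Gamma0 N) 2)
    (hf₀ : f₀ ∈ intLattice N 2) :
    (3 : heckeAlgebra N 2 (∅ : Set ℕ)) ∈ congIdeal f₀ := by
  refine ⟨f₀, hf₀, ?_⟩
  have : ((3 : heckeAlgebra N 2 (∅ : Set ℕ)) : Module.End ℂ (CuspForm (Gamma0 N) 2)) =
      (3 : ℤ) • (1 : Module.End ℂ (CuspForm (Gamma0 N) 2)) := by
    have h3 : ((3 : heckeAlgebra N 2 (∅ : Set ℕ)) : Module.End ℂ (CuspForm (Gamma0 N) 2)) = 3 := rfl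
    rw [h3]
    simp
  rw [this, LinearMap.smul_apply, Module.End.one_apply]

theorem T_sub_mem_congIdeal [NeZero N] (f₀ : CuspForm (Gamma0 N) 2) (af a : ℕ → ℤ)
    (haf : ∀ n, (af n : ℂ) = qCoeff ⇑f₀ n) (hafa : ∀ n, (3 : ℤ) ∣ af n - a n)
    (heig : FormalHecke.IsEigensystem
      (fun ℓ => if ℓ ∣ N then 0 else ((chiNegThree ℓ : ℤ) : ℤ)) a)
    {ℓ : ℕ} (hℓ : ℓ.Prime) (hℓN : ¬ ℓ ∣ N) :
    (heckeAlgebra.T hℓ hℓN (Set.notMem_empty ℓ) : heckeAlgebra N 2 (∅ : Set ℕ)) -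
      ((a ℓ : ℤ) : heckeAlgebra N 2 (∅ : Set ℕ)) ∈ congIdeal f₀ := by
  rw [mem_congIdeal]
  have hcoe : (((heckeAlgebra.T hℓ hℓN (Set.notMem_empty ℓ) : heckeAlgebra N 2 (∅ : Set ℕ)) -
      ((a ℓ : ℤ) : heckeAlgebra N 2 (∅ : Set ℕ)) : heckeAlgebra N 2 (∅ : Set ℕ)) :
        Module.End ℂ (CuspForm (Gamma0 N) 2)) f₀ =
      heckeTLin 2 hℓ hℓN f₀ + (-(a ℓ) : ℤ) • f₀ := by
    have hc : (((a ℓ : ℤ) : heckeAlgebra N 2 (∅ : Set ℕ)) :
        Module.End ℂ (CuspForm (Gamma0 N) 2)) = ((a ℓ : ℤ) : Module.End ℂ (CuspForm (Gamma0 N) 2)) :=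
      rfl
    rw [Subalgebra.coe_sub, heckeAlgebra.coe_T, LinearMap.sub_apply, hc,
      neg_smul, ← sub_eq_add_neg]
    congr 1
  rw [hcoe]
  -- the integer coefficients
  have hdvd : ∀ n, (3 : ℤ) ∣ af (ℓ * n) + (ℓ : ℤ) * (if ℓ ∣ n then af (n / ℓ) else 0)
      - a ℓ * af n := by
    intro n
    have e1 := heig.2 ℓ hℓ n
    simp only [if_neg hℓN] at e1
    obtain ⟨x, hx⟩ := hafa (ℓ * n)
    obtain ⟨y, hy⟩ := hafa n
    obtain ⟨z, hz⟩ := hafa (n / ℓ)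
    obtain ⟨w, hw⟩ := three_dvd_sub_chiNegThree ℓ
    by_cases hd : ℓ ∣ n
    · simp only [if_pos hd] at e1 ⊢
      refine ⟨x + ℓ * z + w * a (n / ℓ) - a ℓ * y, ?_⟩
      linear_combination hx + (ℓ : ℤ) * hz + a (n / ℓ) * hw - a ℓ * hy + e1
    · simp only [if_neg hd] at e1 ⊢
      refine ⟨x - a ℓ * y, ?_⟩
      linear_combination hx - a ℓ * hy + e1
  choose c hc using hdvd
  apply exists_mem_intLattice_eq_three_smul _ c
  intro n
  rw [qCoeff_add, qCoeff_zsmul, qCoeff_heckeTLin, ← hc n, ← haf, ← haf, ← haf]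
  split_ifs <;> push_cast <;> ring

end Fermat.Agent.S49Lib
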